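import Mathlib
import Fermat.Agent.LT.T6.H888.ArchClassSpec

/-!
# Row LT, tower T6, leaf T6.22.B `DarbouxC888` (helper683): THE CUT

OFF-MAIN.  Definitions, five frozen Props and the PROVED top `darbouxC_of_leaves683`.
No hole, nothing assumed.  Spec: `LT/T6/H888/ArchClassSpec.lean` (helper888, sha256 9a3f1734),
byte-identical copy, not touched.

Notation of the Spec: `A = wtA888 n`, `K = kerW888 n`, `ρ = rho888`, `T = gT888 n` (generalised
translation), `G = gL888 n` (Green operator).  `DarbouxAt683 n g` is the identity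
`T (G g)(t, u) = (G g)(t) + G (T g (t, ·))(u)` for all `t, u > 0`.

    DarbouxC888  ⟸  DbSmoothC683 + DbLinC683 + DbLimC683 + DbMonoC683 + DbDenseC683

* `DbSmoothC683` (THE ANALYTIC CORE): the identity for `g = (L F) ∘ cosh`, `F` of class `C²` on
  `(0, ∞)`, `L F = (ρ² - 1) F'' + 2 ρ F'` (`n = 0`), `(ρ² - 1) F'' + (3 ρ - 1) F'` (`n = ±1`).
  Proof: (i) `G g = F ∘ cosh - F 1` (`(A · (F ∘ cosh)')' = A · g`, twice the fundamental theorem
  of calculus); (ii) with `H(q, φ) = K(t, q, φ) F(ρ(t, q, φ))` the POINTWISE identity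
  `∂_q (A(q) ∂_q H) = A(q) K (L F)(ρ) + ∂_φ Ψ`, `Ψ = F'(ρ) sinh t sin φ` (`n = 0`),
  `Ψ = (1 + cosh q) K F'(ρ) sinh t sin φ + tanh(t/2) cosh q sin φ F(ρ)` (`n = ±1`), `Ψ` is
  `2π`-periodic in `φ`; integrate in `q` over `[0, r]`, in `φ` over `[0, 2π]` (Fubini on a
  rectangle), divide by `A(r)`, integrate in `r` over `[0, u]`.  Both pointwise identities and
  the final identity were checked numerically.
* `DbLinC683`: the identity is linear in `g` (all integrands are continuous: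
  `r ↦ A(r)⁻¹ ∫₀ʳ A g` is continuous on `[0, ∞)` with value `0` at `0`, because `A` is
  increasing, `|∫₀ʳ A g| ≤ r A(r) sup |g|`).
* `DbLimC683`: the identity passes to uniform limits on `[0, R]`, `R = t + u`
  (`arcosh ρ(t, q, φ) ≤ t + q`; `|K| ≤ 2`; `|G h (d)| ≤ d² sup_{[0, d]} |h|`).
* `DbMonoC683`: the monomials `cosh^k`, by strong induction on `k` from `DbSmoothC683` and
  `DbLinC683`: `L(ρ^k) = k(k+1) ρ^k - k(k-1) ρ^{k-2}` (`n = 0`),
  `L(ρ^k) = k(k+2) ρ^k - k ρ^{k-1} - k(k-1) ρ^{k-2}` (`n = ±1`), and `1 = L F₀` with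
  `F₀ = log(1 + ρ)` (`n = 0`), `F₀ = log(1 + ρ)/2 - 1/(1 + ρ)` (`n = ±1`).
* `DbDenseC683`: Weierstrass (`exists_polynomial_near_of_continuousOn` for the real and the
  imaginary part of `g ∘ arcosh` on `[1, cosh R]`).
-/

set_option autoImplicit false

open MeasureTheory

noncomputable section

namespace Fermat.Agent.LT.T6.H683

open Fermat.Agent.LT.T6 Fermat.Agent.LT.T6.H888

/-- The Darboux identity for the function `g`. -/
def DarbouxAt683 (n : ℤ) (g : ℝ → ℂ) : Prop :=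
  ∀ t u : ℝ, 0 < t → 0 < u →
    gT888 n (gL888 n g) t u = gL888 n g t + gL888 n (fun q => gT888 n g t q) u

/-- The radial operator in the variable `ρ = cosh t`, on the jet `(F', F'')`:
`(ρ² - 1) F'' + 2 ρ F'` for `n = 0`, `(ρ² - 1) F'' + (3 ρ - 1) F'` for `n = ±1`. -/
def lop683 (n : ℤ) (F' F'' : ℝ → ℝ) (x : ℝ) : ℝ :=
  (x ^ 2 - 1) * F'' x + (if n = 0 then 2 * x else 3 * x - 1) * F' x

/-- **Leaf D.1 (SMOOTH, the analytic core).**  The Darboux identity for `g = (L F) ∘ cosh`,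
`F` of class `C²` on `(0, ∞)`. -/
def DbSmoothC683 : Prop :=
  ∀ n : ℤ, n = 0 ∨ n = 1 ∨ n = -1 →
    ∀ F F' F'' : ℝ → ℝ, (∀ x : ℝ, 0 < x → HasDerivAt F (F' x) x) →
      (∀ x : ℝ, 0 < x → HasDerivAt F' (F'' x) x) → ContinuousOn F'' (Set.Ioi 0) →
      DarbouxAt683 n (fun q => ((lop683 n F' F'' (Real.cosh q) : ℝ) : ℂ))

/-- **Leaf D.2 (LINEAR).**  The Darboux identity is linear in `g`. -/
def DbLinC683 : Prop :=
  ∀ n : ℤ, n = 0 ∨ n = 1 ∨ n = -1 →
    ∀ g h : ℝ → ℂ, ContinuousOn g (Set.Ici 0) → ContinuousOn h (Set.Ici 0) →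
      ∀ a b : ℂ, DarbouxAt683 n g → DarbouxAt683 n h →
        DarbouxAt683 n (fun q => a * g q + b * h q)

/-- **Leaf D.3 (LIMIT).**  The Darboux identity passes to uniform limits on compact sets. -/
def DbLimC683 : Prop :=
  ∀ n : ℤ, n = 0 ∨ n = 1 ∨ n = -1 →
    ∀ g : ℝ → ℂ, ContinuousOn g (Set.Ici 0) →
      (∀ R ε : ℝ, 0 < R → 0 < ε → ∃ h : ℝ → ℂ, ContinuousOn h (Set.Ici 0) ∧
        DarbouxAt683 n h ∧ ∀ q ∈ Set.Icc (0 : ℝ) R, ‖g q - h q‖ ≤ ε) →
      DarbouxAt683 n g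

/-- **Leaf D.4 (MONOMIALS).**  The Darboux identity for the monomials `cosh ^ k`, from the
smooth case and linearity. -/
def DbMonoC683 : Prop :=
  DbSmoothC683 → DbLinC683 →
    ∀ n : ℤ, n = 0 ∨ n = 1 ∨ n = -1 → ∀ k : ℕ,
      DarbouxAt683 n (fun q => ((Real.cosh q ^ k : ℝ) : ℂ))

/-- **Leaf D.5 (DENSE).**  Polynomials in `cosh` are uniformly dense on `[0, R]`. -/
def DbDenseC683 : Prop :=
  ∀ g : ℝ → ℂ, ContinuousOn g (Set.Ici 0) → ∀ R ε : ℝ, 0 < R → 0 < ε →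
    ∃ (N : ℕ) (c : ℕ → ℂ), ∀ q ∈ Set.Icc (0 : ℝ) R,
      ‖g q - ∑ i ∈ Finset.range N, c i * ((Real.cosh q ^ i : ℝ) : ℂ)‖ ≤ ε

/-! ## The top (PROVED) -/

theorem gL_zero683 (n : ℤ) : gL888 n (fun _ => (0 : ℂ)) = fun _ => 0 := by
  funext t
  simp [gL888]

theorem gT_zero683 (n : ℤ) (t : ℝ) : (fun q => gT888 n (fun _ => (0 : ℂ)) t q) = fun _ => 0 := by
  funext q
  simp [gT888]

theorem darbouxAt_zero683 (n : ℤ) : DarbouxAt683 n (fun _ => (0 : ℂ)) := by
  intro t u _ _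
  have h1 : gT888 n (fun _ => (0 : ℂ)) t u = 0 := congrFun (gT_zero683 n t) u
  have h2 : ∀ x : ℝ, gL888 n (fun _ => (0 : ℂ)) x = 0 := congrFun (gL_zero683 n)
  rw [gL_zero683, gT_zero683, h1, h2 u]
  simp

theorem continuous_mono683 (k : ℕ) :
    Continuous (fun q : ℝ => ((Real.cosh q ^ k : ℝ) : ℂ)) :=
  Complex.continuous_ofReal.comp (Real.continuous_cosh.pow k)

theorem darbouxAt_sum683 (hLin : DbLinC683) (n : ℤ) (hn : n = 0 ∨ n = 1 ∨ n = -1)
    (hMono : ∀ k : ℕ, DarbouxAt683 n (fun q => ((Real.cosh q ^ k : ℝ) : ℂ)))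
    (c : ℕ → ℂ) (N : ℕ) :
    DarbouxAt683 n (fun q => ∑ i ∈ Finset.range N, c i * ((Real.cosh q ^ i : ℝ) : ℂ)) := by
  induction N with
  | zero => simpa using darbouxAt_zero683 n
  | succ N ih =>
    have hc : Continuous
        (fun q : ℝ => ∑ i ∈ Finset.range N, c i * ((Real.cosh q ^ i : ℝ) : ℂ)) :=
      continuous_finsetSum _ (fun i _ => continuous_const.mul (continuous_mono683 i))
    have h := hLin n hn _ _ hc.continuousOn (continuous_mono683 N).continuousOn 1 (c N) ih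
      (hMono N)
    have he : (fun q : ℝ => ∑ i ∈ Finset.range (N + 1), c i * ((Real.cosh q ^ i : ℝ) : ℂ))
        = fun q => 1 * (∑ i ∈ Finset.range N, c i * ((Real.cosh q ^ i : ℝ) : ℂ))
            + c N * ((Real.cosh q ^ N : ℝ) : ℂ) := by
      funext q
      rw [Finset.sum_range_succ, one_mul]
    rw [he]
    exact h

/-- **THE TOP**: `DarbouxC888` from the five leaves. -/
theorem darbouxC_of_leaves683 (hS : DbSmoothC683) (hLin : DbLinC683) (hLim : DbLimC683)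
    (hMono : DbMonoC683) (hDense : DbDenseC683) : DarbouxC888 := by
  intro n hn g hg
  have hM := hMono hS hLin n hn
  have key : DarbouxAt683 n g := by
    refine hLim n hn g hg (fun R ε hR hε => ?_)
    obtain ⟨N, c, hc⟩ := hDense g hg R ε hR hε
    refine ⟨fun q => ∑ i ∈ Finset.range N, c i * ((Real.cosh q ^ i : ℝ) : ℂ), ?_, ?_, hc⟩
    · exact (continuous_finsetSum _
        (fun i _ => continuous_const.mul (continuous_mono683 i))).continuousOn
    · exact darbouxAt_sum683 hLin n hn hM c N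
  exact key

end Fermat.Agent.LT.T6.H683

end
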